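import Fermat.Agent.LindelofBacklund.Interpolation
import Fermat.Agent.BohrLandau.Zeros

/-!
# The hypothesis of Lindelöf leaves few zeros to the right of the critical line

If `ζ (1/2 + it) = O (|t| ^ ε)` for every `ε > 0`, the same holds uniformly on `1/2 ≤ re s ≤ 4`.
Jensen's inequality on the circles of radius `3/2` round `2 + iy` then shows that there are
`o (log T)` zeros with `re ρ ≥ σ > 1/2` and `T < im ρ ≤ T + 1`.
-/

set_option autoImplicit false

noncomputable section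

namespace FA.Backlund

open Complex Metric Finset FA.RiemannMangoldt
open FA.BohrLandau (zetaMult rightCount)
open scoped Real

/-- The zeros of `ζ` on a disc, and the factor without zeros. -/
theorem zero_data {c : ℂ} {R r r₁ B : ℝ} (h1 : 0 < r₁) (hr : r₁ < r) (hR : r < R)
    (hne : ∀ z : ℂ, ‖z‖ < R → c + z ≠ 1) (h0 : riemannZeta c ≠ 0)
    (hb : ∀ z : ℂ, ‖z‖ = r → ‖riemannZeta (c + z)‖ ≤ B * ‖riemannZeta c‖) :
    ∃ (Z : Multiset ℂ) (h : ℂ → ℂ), DifferentiableOn ℂ h (ball 0 R) ∧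
      (∀ z, riemannZeta (c + z) = rootProd Z z * h z) ∧ (∀ ρ ∈ Z, ‖ρ‖ ≤ r₁) ∧
      (∀ z : ℂ, ‖z‖ ≤ r₁ → h z ≠ 0) ∧
      (Multiset.card Z : ℝ) * Real.log (r / r₁) ≤ Real.log B ∧
      ∀ s : ℂ, ‖s - c‖ ≤ r₁ → zetaMult s = Z.count (s - c) := by
  obtain ⟨f, hf⟩ : ∃ f : ℂ → ℂ, f = fun z => riemannZeta (c + z) := ⟨_, rfl⟩
  have hd : DifferentiableOn ℂ f (ball 0 R) := fun z hz => by
    rw [hf]
    exact ((differentiableAt_riemannZeta (hne z (mem_ball_zero_iff.1 hz))).comp z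
      (differentiableAt_id.const_add c)).differentiableWithinAt
  obtain ⟨Z, h, hh, he, hZ, hne', hcard, hord⟩ := exists_factor (r := r) (B := B) isOpen_ball
    (closedBall_subset_ball hR) h1 hr hd (by simpa [hf] using h0)
    (fun z hz => by simpa [hf] using hb z (mem_sphere_zero_iff_norm.1 hz))
  refine ⟨Z, h, hh, fun z => by rw [← he z, hf], fun ρ hρ => mem_closedBall_zero_iff.1 (hZ ρ hρ),
    fun z hz => hne' z (mem_closedBall_zero_iff.2 hz), ?_, fun s hs => ?_⟩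
  · rw [← Real.log_pow]
    exact Real.log_le_log (pow_pos (div_pos (h1.trans hr) h1) _) hcard
  · have h' := analyticOrderAt_comp_of_deriv_ne_zero (f := riemannZeta)
      (g := fun z : ℂ => c + z) (z₀ := s - c) (by fun_prop) (by simp)
    rw [show (riemannZeta ∘ fun z : ℂ => c + z) = f by rw [hf]; rfl] at h'
    simp only [add_sub_cancel] at h'
    rw [← hord (s - c) (mem_closedBall_zero_iff.2 hs), zetaMult, analyticOrderNatAt, ← h',
      ← analyticOrderNatAt]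

theorem rightCount_add_sum_le {σ T T' : ℝ} (hT : 0 ≤ T) (hTT : T ≤ T') (F : Finset ℂ)
    (hF : ∀ ρ ∈ F, riemannZeta ρ = 0 ∧ 0 < ρ.re ∧ ρ.re < 1 ∧ σ ≤ ρ.re ∧ T < ρ.im ∧ ρ.im ≤ T') :
    rightCount σ T + ∑ ρ ∈ F, zetaMult ρ ≤ rightCount σ T' := by
  classical
  rw [rightCount, rightCount, ← sum_union]
  · refine sum_le_sum_of_subset fun ρ hρ => ?_
    rw [mem_filter, Set.Finite.mem_toFinset]
    rcases mem_union.1 hρ with h | h
    · rw [mem_filter, Set.Finite.mem_toFinset] at h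
      obtain ⟨⟨a, b, c, d, e⟩, g⟩ := h
      exact ⟨⟨a, b, c, d, e.trans hTT⟩, g⟩
    · obtain ⟨a, b, c, g, d, e⟩ := hF ρ h
      exact ⟨⟨a, b, c, hT.trans_lt d, e⟩, g⟩
  · rw [disjoint_left]
    intro ρ h h'
    rw [mem_filter, Set.Finite.mem_toFinset] at h
    exact absurd h.1.2.2.2.2 (not_le.2 (hF ρ h').2.2.2.2.1)

theorem rightCount_mono {σ T T' : ℝ} (hTT : T ≤ T') : rightCount σ T ≤ rightCount σ T' := by
  refine sum_le_sum_of_subset fun ρ hρ => ?_
  rw [mem_filter, Set.Finite.mem_toFinset] at hρ ⊢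
  obtain ⟨⟨a, b, c, d, e⟩, g⟩ := hρ
  exact ⟨⟨a, b, c, d, e.trans hTT⟩, g⟩

/-- Uniformity in the strip. -/
theorem exists_strip_le (hLH : ∀ ε : ℝ, 0 < ε → LineBound (1 / 2) ε) {ε : ℝ} (hε : 0 < ε) :
    ∃ C : ℝ, 0 ≤ C ∧ ∀ x v : ℝ, 1 / 2 ≤ x → x ≤ 4 → 1 ≤ |v| →
      ‖riemannZeta ((x : ℂ) + v * I)‖ ≤ C * |v| ^ ε := by
  have ha := (hLH ε hε).cleared hε.le (by norm_num)
  have hb := (lineBound_two_lt (σ := 4) (by norm_num) hε.le).cleared hε.le (by norm_num)
  obtain ⟨A, hA, hA'⟩ := ha.interp hb (by norm_num) (by norm_num) (by norm_num) (by linarith)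
    (by linarith)
  refine ⟨A * 4 ^ (ε + 1), by positivity, fun x v h1 h2 hv =>
    norm_zeta_le_of_cleared hA (by linarith) hv ((hA' x v h1 h2).trans (le_of_eq ?_))⟩
  rw [← mul_add, sub_add_cancel, mul_one]

/-- Jensen's inequality for the zeros near one height. -/
theorem sum_zetaMult_window_le {C ε h y : ℝ}
    (hb : ∀ x v : ℝ, 1 / 2 ≤ x → x ≤ 4 → 1 ≤ |v| → ‖riemannZeta ((x : ℂ) + v * I)‖ ≤ C * |v| ^ ε)
    (hC : 0 ≤ C) (hε : 0 ≤ ε) (h0 : 0 < h) (h1 : h ≤ 1 / 4) (hy : 3 ≤ y) (F : Finset ℂ)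
    (hF : ∀ ρ ∈ F, 1 / 2 + 2 * h ≤ ρ.re ∧ ρ.re < 1 ∧ |ρ.im - y| ≤ h) :
    (∑ ρ ∈ F, (zetaMult ρ : ℝ)) * Real.log (3 / 2 / (3 / 2 - h)) ≤
      Real.log (3 * (C + 1)) + ε * Real.log (2 * y) := by
  classical
  obtain ⟨c, hc⟩ : ∃ c : ℂ, c = ((2 : ℝ) : ℂ) + y * I := ⟨_, rfl⟩
  have hre : c.re = 2 := by simp [hc]
  have him : c.im = y := by simp [hc]
  have hpi : (1 / 3 : ℝ) ≤ 2 - π ^ 2 / 6 := by nlinarith [Real.pi_lt_d2, Real.pi_pos]
  have hlow : 1 / 3 ≤ ‖riemannZeta c‖ := by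
    rw [hc]
    exact hpi.trans ((FA.BohrLandau.two_sub_zeta_two_le_re y).trans (re_le_norm _))
  have hy0 : (0 : ℝ) < 2 * y := by linarith
  obtain ⟨Z, f, -, -, -, -, hcard, hord⟩ := zero_data (c := c) (R := 2) (r := 3 / 2)
    (r₁ := 3 / 2 - h) (B := 3 * (C + 1) * (2 * y) ^ ε) (by linarith) (by linarith) (by norm_num)
    (fun z hz e => by
      have e1 := congrArg Complex.im e
      rw [add_im, him, one_im] at e1
      linarith [(abs_le.1 ((abs_im_le_norm z).trans hz.le)).1])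
    (fun e => by rw [e, norm_zero] at hlow; linarith)
    (fun z hz => by
      have k1 := abs_le.1 ((abs_re_le_norm z).trans hz.le)
      have k2 := abs_le.1 ((abs_im_le_norm z).trans hz.le)
      have k3 := hb (c + z).re (c + z).im (by rw [add_re, hre]; linarith)
        (by rw [add_re, hre]; linarith) (by rw [add_im, him, abs_of_pos] <;> linarith)
      rw [re_add_im] at k3
      have k4 : |(c + z).im| ^ ε ≤ (2 * y) ^ ε := Real.rpow_le_rpow (abs_nonneg _)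
        (by rw [add_im, him, abs_of_pos] <;> linarith) hε
      have k5 : 0 ≤ (2 * y) ^ ε := by positivity
      calc ‖riemannZeta (c + z)‖ ≤ C * (2 * y) ^ ε :=
            k3.trans (mul_le_mul_of_nonneg_left k4 hC)
        _ ≤ (C + 1) * (2 * y) ^ ε := by linarith
        _ = 3 * (C + 1) * (2 * y) ^ ε * (1 / 3) := by ring
        _ ≤ _ := mul_le_mul_of_nonneg_left hlow (by positivity))
  rw [Real.log_mul (by positivity) (Real.rpow_pos_of_pos hy0 ε).ne', Real.log_rpow hy0] at hcard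
  refine le_trans (mul_le_mul_of_nonneg_right ?_ (Real.log_nonneg ?_)) hcard
  · have hle : ∀ ρ ∈ F, zetaMult ρ = Z.count (ρ - c) := fun ρ hρ => by
      obtain ⟨a, b, d⟩ := hF ρ hρ
      refine hord ρ ((norm_le_abs_re_add_abs_im _).trans ?_)
      rw [sub_re, sub_im, hre, him, abs_of_neg (by linarith)]
      linarith
    have hnat : ∑ ρ ∈ F, zetaMult ρ ≤ Multiset.card Z := by
      rw [sum_congr rfl hle, ← sum_image (f := fun a => Z.count a) fun a _ b _ e =>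
        sub_left_injective e, ← Multiset.sum_count_eq_card (s := F.image (· - c) ∪ Z.toFinset)
          fun a ha => mem_union_right _ (Multiset.mem_toFinset.2 ha)]
      exact sum_le_sum_of_subset subset_union_left
    exact_mod_cast hnat
  · rw [one_le_div (by linarith)]
    linarith

/-- **`o (log T)` zeros in the windows.** -/
theorem exists_rightCount_step (hLH : ∀ ε : ℝ, 0 < ε → LineBound (1 / 2) ε) {σ : ℝ}
    (hσ : 1 / 2 < σ) {η : ℝ} (hη : 0 < η) : ∃ T₀ : ℝ, ∀ T : ℝ, T₀ ≤ T →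
      (rightCount σ (T + 1) : ℝ) ≤ rightCount σ T + η * Real.log T := by
  classical
  obtain ⟨h, hh⟩ : ∃ h, h = (min σ 1 - 1 / 2) / 2 := ⟨_, rfl⟩
  have h0 : 0 < h := by
    have : 1 / 2 < min σ 1 := lt_min hσ (by norm_num)
    linarith
  have h1 : h ≤ 1 / 4 := by linarith [min_le_right σ 1]
  obtain ⟨K, hK⟩ : ∃ K, K = ⌈1 / h⌉₊ := ⟨_, rfl⟩
  obtain ⟨L, hL⟩ : ∃ L, L = Real.log (3 / 2 / (3 / 2 - h)) := ⟨_, rfl⟩
  have hL0 : 0 < L := hL ▸ Real.log_pos (by rw [one_lt_div (by linarith)]; linarith)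
  obtain ⟨ε, hεd⟩ : ∃ ε, ε = η * L / (2 * (K + 1)) := ⟨_, rfl⟩
  have hε : 0 < ε := hεd ▸ by positivity
  obtain ⟨C, hC, hb⟩ := exists_strip_le hLH hε
  obtain ⟨c₁, hc₁⟩ : ∃ c₁, c₁ = Real.log (3 * (C + 1)) + ε * Real.log 4 := ⟨_, rfl⟩
  refine ⟨max 3 (Real.exp (2 * (K + 1) * c₁ / (L * η))), fun T hT => ?_⟩
  have hT3 : 3 ≤ T := (le_max_left _ _).trans hT
  have hlog : 2 * (K + 1) * c₁ / (L * η) ≤ Real.log T :=
    (Real.le_log_iff_exp_le (by linarith)).2 ((le_max_right _ _).trans hT)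
  obtain ⟨S, hS⟩ : ∃ S, S = (finite_zetaZeros (T + 1)).toFinset.filter fun ρ => σ ≤ ρ.re :=
    ⟨_, rfl⟩
  have hsplit : rightCount σ (T + 1) ≤
      rightCount σ T + ∑ ρ ∈ S.filter (fun ρ => T < ρ.im), zetaMult ρ := by
    rw [rightCount, ← hS, ← sum_filter_add_sum_filter_not S (fun ρ => T < ρ.im), add_comm]
    refine Nat.add_le_add_right (sum_le_sum_of_subset fun ρ hρ => ?_) _
    rw [mem_filter, hS, mem_filter, Set.Finite.mem_toFinset, not_lt] at hρ
    obtain ⟨⟨⟨a, b, c, d, -⟩, g⟩, e⟩ := hρ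
    rw [mem_filter, Set.Finite.mem_toFinset]
    exact ⟨⟨a, b, c, d, e⟩, g⟩
  obtain ⟨F, hF⟩ : ∃ F, F = S.filter (fun ρ => T < ρ.im) := ⟨_, rfl⟩
  rw [← hF] at hsplit
  have hmem : ∀ ρ ∈ F, 1 / 2 + 2 * h ≤ ρ.re ∧ ρ.re < 1 ∧ T < ρ.im ∧ ρ.im ≤ T + 1 := fun ρ hρ => by
    rw [hF, mem_filter, hS, mem_filter, Set.Finite.mem_toFinset] at hρ
    obtain ⟨⟨⟨-, -, c, -, e⟩, g⟩, d⟩ := hρ
    exact ⟨by linarith [min_le_left σ 1], c, d, e⟩
  -- each zero is in one of the windows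
  have hcover : ∑ ρ ∈ F, (zetaMult ρ : ℝ) ≤ ∑ j ∈ range (K + 1),
      ∑ ρ ∈ F.filter (fun ρ => |ρ.im - (T + j * h)| ≤ h), (zetaMult ρ : ℝ) := by
    simp only [sum_filter]
    rw [sum_comm]
    refine sum_le_sum fun ρ hρ => ?_
    obtain ⟨-, -, d, e⟩ := hmem ρ hρ
    have hq : 0 ≤ (ρ.im - T) / h := div_nonneg (by linarith) h0.le
    obtain ⟨j, hj⟩ : ∃ j, j = ⌊(ρ.im - T) / h⌋₊ := ⟨_, rfl⟩
    have k1 := Nat.floor_le hq
    have k2 := Nat.lt_floor_add_one ((ρ.im - T) / h)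
    rw [← hj, le_div_iff₀ h0] at k1
    rw [← hj, div_lt_iff₀ h0] at k2
    have hjK : j ≤ K := by
      rw [hj, hK]
      exact (Nat.floor_mono (div_le_div_of_nonneg_right (by linarith) h0.le)).trans
        (Nat.floor_le_ceil _)
    refine le_trans (le_of_eq ?_)
      (single_le_sum (fun i _ => ?_) (mem_range.2 (by omega : j < K + 1)))
    · rw [if_pos]
      rw [abs_le]
      constructor <;> linarith
    · split_ifs <;> simp
  have hper : ∀ j ∈ range (K + 1),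
      ∑ ρ ∈ F.filter (fun ρ => |ρ.im - (T + j * h)| ≤ h), (zetaMult ρ : ℝ) ≤
        (c₁ + ε * Real.log T) / L := fun j hj => by
    have hjK : (j : ℝ) ≤ K := Nat.cast_le.2 (Nat.lt_succ_iff.1 (mem_range.1 hj))
    have hKh : (K : ℝ) * h ≤ 2 := by
      have := Nat.ceil_lt_add_one (show 0 ≤ 1 / h by positivity)
      rw [← hK] at this
      have := mul_lt_mul_of_pos_right this h0
      rw [add_mul, one_div_mul_cancel h0.ne'] at this
      linarith
    have hjh : (j : ℝ) * h ≤ 2 := (mul_le_mul_of_nonneg_right hjK h0.le).trans hKh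
    have hjh0 : 0 ≤ (j : ℝ) * h := by positivity
    rw [le_div_iff₀ hL0, hL]
    refine (sum_zetaMult_window_le hb hC hε.le h0 h1 (y := T + j * h) (by linarith) _
      fun ρ hρ => ?_).trans ?_
    · rw [mem_filter] at hρ
      obtain ⟨a, b, -, -⟩ := hmem ρ hρ.1
      exact ⟨a, b, hρ.2⟩
    · have h4 : Real.log (2 * (T + j * h)) ≤ Real.log 4 + Real.log T := by
        rw [← Real.log_mul (by norm_num) (by linarith)]
        exact Real.log_le_log (by linarith) (by linarith)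
      have := mul_le_mul_of_nonneg_left h4 hε.le
      rw [hc₁]
      linarith
  have htot := hcover.trans ((sum_le_sum hper).trans (le_of_eq (by
    rw [sum_const, card_range, nsmul_eq_mul])))
  have hfin : ((K + 1 : ℕ) : ℝ) * ((c₁ + ε * Real.log T) / L) ≤ η * Real.log T := by
    rw [div_le_iff₀ (mul_pos hL0 hη)] at hlog
    rw [mul_div_assoc', div_le_iff₀ hL0, hεd]
    have e : ((K + 1 : ℕ) : ℝ) * (η * L / (2 * (K + 1)) * Real.log T) =
        η * Real.log T * L / 2 := by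
      push_cast
      field_simp
    rw [mul_add, e]
    push_cast
    linarith
  have h3 := (Nat.cast_le (α := ℝ)).2 hsplit
  push_cast at h3 htot hfin
  linarith

end FA.Backlund

end
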