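import Fermat.Agent.LindelofBacklund.Count
import Fermat.Agent.VonKoch.Bounds

/-!
# Few zeros to the right of the critical line give the hypothesis of Lindelöf there

With `N = o (log t)` zeros in the disc of radius `1 - δ/4` round `3/2 + it`, the logarithm of the
factor without zeros is `O (1 + N)` near the centre and `O (log t)` near the edge, hence
`o (log t)` at `1/2 + δ + it` by the theorem of the three circles.
-/

set_option autoImplicit false

noncomputable section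

namespace FA.Backlund

open Complex Metric Finset FA.RiemannMangoldt
open FA.BohrLandau (zetaMult rightCount)

theorem norm_zeta_right_le {s : ℂ} (h1 : 5 / 4 ≤ s.re) (h2 : s.re ≤ 2) : ‖riemannZeta s‖ ≤ 16 := by
  refine (FA.DLVP.norm_zeta_le_real (σ := s.re) (by linarith) rfl).trans ?_
  have k := FA.ZeroFree.norm_zeta_real_le (δ := s.re - 1) (by linarith) (by linarith)
  push_cast at k
  rw [add_sub_cancel] at k
  refine k.trans ?_
  rw [div_le_iff₀ (by linarith)]
  linarith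

/-- The factor without zeros, where the zeros are at distance at least `1/4`. -/
theorem norm_factor_le {c z : ℂ} {Z : Multiset ℂ} {h : ℂ → ℂ} {A : ℝ}
    (he : riemannZeta (c + z) = rootProd Z z * h z) (hd : ∀ ρ ∈ Z, 1 / 4 ≤ ‖z - ρ‖)
    (hA : ‖riemannZeta (c + z)‖ ≤ A) : ‖h z‖ ≤ A * 4 ^ Multiset.card Z := by
  rw [he, norm_mul] at hA
  have h1 := mul_le_mul_of_nonneg_right (le_norm_rootProd (by norm_num) hd) (norm_nonneg (h z))
  have h2 := mul_le_mul_of_nonneg_right (h1.trans hA)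
    (show (0 : ℝ) ≤ 4 ^ Multiset.card Z by positivity)
  rwa [mul_right_comm, ← mul_pow, show (1 / 4 : ℝ) * 4 = 1 by norm_num, one_pow, one_mul] at h2

/-- From the modulus to the real part of the logarithm. -/
theorem re_le_of_norm_le {w u v : ℂ} {A : ℝ} {N : ℕ} (hA : 0 < A) (h0 : 1 / 8 ≤ ‖u‖)
    (he : v = u * Complex.exp w) (hv : ‖v‖ ≤ A * 4 ^ N) :
    w.re ≤ Real.log 8 + Real.log A + N * Real.log 4 := by
  rw [he, norm_mul, Complex.norm_exp] at hv
  have h1 := (mul_le_mul_of_nonneg_right h0 (Real.exp_pos w.re).le).trans hv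
  rw [← Real.log_pow, ← Real.log_mul (by norm_num) hA.ne',
    ← Real.log_mul (by positivity) (by positivity), Real.le_log_iff_exp_le (by positivity)]
  linarith

/-- The logarithm of the factor without zeros, and the number of the zeros. -/
theorem exists_disc_log {δ t : ℝ} (hδ : 0 < δ) (hδ2 : δ ≤ 1 / 2) (ht : 4 ≤ t) :
    ∃ (N : ℕ) (g : ℂ → ℂ),
      rightCount (1 / 2 + δ / 4) (t - 2) + N ≤ rightCount (1 / 2 + δ / 4) (t + 1) ∧
      DifferentiableOn ℂ g (ball 0 (1 - δ / 4)) ∧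
      (∃ (Z : Multiset ℂ) (K : ℂ), Multiset.card Z = N ∧ ∀ z : ℂ, ‖z‖ < 1 - δ / 4 →
        riemannZeta (((1 + 1 / 2 : ℝ) : ℂ) + t * I + z) =
          rootProd Z z * (K * Complex.exp (g z))) ∧
      (∀ z : ℂ, ‖z‖ = 1 / 8 → ‖g z‖ ≤ 10 + 4 * N) ∧
      (∀ z : ℂ, ‖z‖ = 1 - δ / 2 → ‖g z‖ ≤ 8 / δ * (3 + 2 * N + Real.log (5 * (t + 6)))) ∧
      ‖riemannZeta (((1 / 2 + δ : ℝ) : ℂ) + t * I)‖ ≤
        8 * Real.exp (2 * N + ‖g ((δ - 1 : ℝ) : ℂ)‖) := by
  classical
  obtain ⟨c, hc⟩ : ∃ c : ℂ, c = ((1 + 1 / 2 : ℝ) : ℂ) + t * I := ⟨_, rfl⟩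
  have hre : c.re = 3 / 2 := by simp [hc]; norm_num
  have him : c.im = t := by simp [hc]
  have hlow : 1 / 8 ≤ ‖riemannZeta c‖ := by
    have := FA.DLVP.zeta_lower (δ := 1 / 2) (by norm_num) (by norm_num) t
    rw [← hc] at this
    norm_num at this
    exact this
  have hup : ‖riemannZeta c‖ ≤ 8 := by
    refine (FA.DLVP.norm_zeta_le_real (σ := 1 + 1 / 2) (by norm_num)
      (by rw [hre]; norm_num)).trans ?_
    have k := FA.ZeroFree.norm_zeta_real_le (δ := 1 / 2) (by norm_num) (by norm_num)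
    norm_num at k ⊢
    exact k
  have hpt : ∀ z : ℂ, ‖z‖ < 3 / 2 → c + z ≠ 1 := fun z hz e => by
    have e1 := congrArg Complex.im e
    rw [add_im, him, one_im] at e1
    linarith [(abs_le.1 ((abs_im_le_norm z).trans hz.le)).1]
  have hA : ∀ z : ℂ, ‖z‖ = 5 / 4 → ‖riemannZeta (c + z)‖ ≤ 5 * (t + 6) := fun z hz => by
    have k1 := abs_le.1 ((abs_re_le_norm z).trans hz.le)
    have k2 := abs_le.1 ((abs_im_le_norm z).trans hz.le)
    refine (FA.DLVP.norm_zeta_crude (by rw [add_re, hre]; linarith)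
      (by rw [add_re, hre]; linarith) ?_).trans ?_
    · rw [add_im, him, abs_of_pos (by linarith)]
      linarith
    · rw [add_im, him, abs_of_pos (by linarith)]
      linarith
  have hA0 : 0 < 5 * (t + 6) := by linarith
  obtain ⟨Z, h, hh, he, hZ, hne, -, hord⟩ := zero_data (c := c) (R := 3 / 2) (r := 5 / 4)
    (r₁ := 1 - δ / 4) (B := 40 * (t + 6)) (by linarith) (by linarith) (by norm_num) hpt
    (fun e => by rw [e, norm_zero] at hlow; linarith)
    (fun z hz => (hA z hz).trans (le_trans (le_of_eq (by ring))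
      (mul_le_mul_of_nonneg_left hlow (by linarith : (0 : ℝ) ≤ 40 * (t + 6)))))
  -- the zeros
  have hzero : ∀ ρ ∈ Z, riemannZeta (c + ρ) = 0 ∧ (c + ρ).re < 1 := fun ρ hρ => by
    have h0 : riemannZeta (c + ρ) = 0 := by
      rw [he, mul_eq_zero, rootProd, Multiset.prod_eq_zero_iff]
      exact Or.inl (Multiset.mem_map.2 ⟨ρ, hρ, sub_self _⟩)
    exact ⟨h0, lt_of_not_ge fun h1 => riemannZeta_ne_zero_of_one_le_re h1 h0⟩
  have hre' : ∀ ρ ∈ Z, ρ.re < -1 / 2 := fun ρ hρ => by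
    have k := (hzero ρ hρ).2
    rw [add_re, hre] at k
    linarith
  obtain ⟨N, hN⟩ : ∃ N, N = Multiset.card Z := ⟨_, rfl⟩
  obtain ⟨g, hg0, hgd, hgexp⟩ := FA.DLVP.exists_log (R := 1 - δ / 4) (by linarith)
    (hh.mono (ball_subset_ball (by linarith)))
    (fun z hz => hne z (mem_ball_zero_iff.1 hz).le)
  have hgdiff : DifferentiableOn ℂ g (ball 0 (1 - δ / 4)) := fun z hz =>
    (hgd z hz).differentiableAt.differentiableWithinAt
  have hh0 : 1 / 8 ≤ ‖h 0‖ := by
    have k := he 0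
    rw [add_zero] at k
    have k1 := mul_le_mul_of_nonneg_right (norm_rootProd_le (Z := Z) (z := 0) (a := 1)
      zero_le_one fun ρ hρ => by
        rw [zero_sub, norm_neg]
        linarith [hZ ρ hρ]) (norm_nonneg (h 0))
    rw [one_pow, one_mul, ← norm_mul, ← k] at k1
    linarith
  have hh1 : ‖h 0‖ ≤ 8 * 2 ^ N := by
    have k := he 0
    rw [add_zero] at k
    rw [k, norm_mul] at hup
    have k1 := mul_le_mul_of_nonneg_right (le_norm_rootProd (Z := Z) (z := 0) (a := 1 / 2)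
      (by norm_num) fun ρ hρ => by
        rw [zero_sub, norm_neg]
        linarith [(abs_le.1 (abs_re_le_norm ρ)).1, hre' ρ hρ]) (norm_nonneg (h 0))
    have k2 := mul_le_mul_of_nonneg_right (k1.trans hup) (show (0 : ℝ) ≤ 2 ^ N by positivity)
    rwa [← hN, mul_right_comm, ← mul_pow, show (1 / 2 : ℝ) * 2 = 1 by norm_num, one_pow,
      one_mul] at k2
  have hl2 : Real.log 2 < 0.694 := Real.log_two_lt_d9.trans (by norm_num)
  have hl4 : Real.log 4 ≤ 2 := by
    rw [show (4 : ℝ) = 2 ^ 2 by norm_num, Real.log_pow]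
    push_cast
    linarith
  have hl8 : Real.log 8 = 3 * Real.log 2 := by
    rw [show (8 : ℝ) = 2 ^ 3 by norm_num, Real.log_pow]
    norm_num
  have hlA : 0 ≤ Real.log (5 * (t + 6)) := Real.log_nonneg (by linarith)
  have hN4 : (N : ℝ) * Real.log 4 ≤ 2 * N := by
    linarith [mul_le_mul_of_nonneg_left hl4 (Nat.cast_nonneg (α := ℝ) N)]
  refine ⟨N, g, ?_, hgdiff, ⟨Z, h 0, hN.symm, fun z hz => ?_⟩, fun z hz => ?_, fun z hz => ?_,
    ?_⟩
  · -- the count
    have e : N = ∑ ρ ∈ Z.toFinset.image (c + ·), zetaMult ρ := by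
      rw [sum_image fun a _ b _ e => add_left_cancel e, hN, ← Multiset.toFinset_sum_count_eq]
      refine sum_congr rfl fun a ha => ?_
      rw [hord (c + a) (by rw [add_sub_cancel_left]; exact hZ a (Multiset.mem_toFinset.1 ha)),
        add_sub_cancel_left]
    rw [e]
    refine rightCount_add_sum_le (by linarith) (by linarith) _ fun ρ hρ => ?_
    obtain ⟨a, ha, rfl⟩ := mem_image.1 hρ
    rw [Multiset.mem_toFinset] at ha
    obtain ⟨k0, k1⟩ := hzero a ha
    obtain ⟨k2, -⟩ := abs_le.1 ((abs_re_le_norm a).trans (hZ a ha))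
    obtain ⟨k3, k4⟩ := abs_le.1 ((abs_im_le_norm a).trans (hZ a ha))
    rw [add_re, hre] at k1 ⊢
    rw [add_im, him]
    exact ⟨k0, by linarith, k1, by linarith, by linarith, by linarith⟩
  · rw [← hc, he, hgexp z (mem_ball_zero_iff.2 hz)]
  · -- near the centre
    refine (borelCaratheodory_zero (R := 1 / 4) (M := 5 + 2 * N) (by positivity)
      (hgdiff.mono (ball_subset_ball (by linarith))) (fun w hw => ?_) (by norm_num)
      (mem_ball_zero_iff.2 (by rw [hz]; norm_num)) hg0).trans (le_of_eq ?_)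
    · rw [mem_ball_zero_iff] at hw
      obtain ⟨k1, k2⟩ := abs_le.1 ((abs_re_le_norm w).trans hw.le)
      have k3 := re_le_of_norm_le (by norm_num : (0 : ℝ) < 16) hh0
        (hgexp w (mem_ball_zero_iff.2 (by linarith)))
        (norm_factor_le (A := 16) (he w) (fun ρ hρ => by
          have k4 := (le_abs_self _).trans (abs_re_le_norm (w - ρ))
          rw [sub_re] at k4
          linarith [hre' ρ hρ])
          (norm_zeta_right_le (by rw [add_re, hre]; linarith) (by rw [add_re, hre]; linarith)))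
      have hl16 : Real.log 16 = 4 * Real.log 2 := by
        rw [show (16 : ℝ) = 2 ^ 4 by norm_num, Real.log_pow]
        norm_num
      rw [← hN] at k3
      show (g w).re ≤ _
      linarith
    · rw [hz]
      ring
  · -- near the edge
    refine (borelCaratheodory_zero (R := 1 - δ / 4) (M := 3 + 2 * N + Real.log (5 * (t + 6)))
      (by positivity) hgdiff (fun w hw => ?_) (by linarith)
      (mem_ball_zero_iff.2 (by rw [hz]; linarith)) hg0).trans ?_
    · have hall : ∀ v ∈ closedBall (0 : ℂ) (5 / 4), ‖h v‖ ≤ 5 * (t + 6) * 4 ^ N := fun v hv =>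
        FA.DLVP.norm_le_of_sphere (closedBall_subset_ball (by norm_num)) (by norm_num) hh
          (fun u hu => by
            rw [mem_sphere_zero_iff_norm] at hu
            rw [hN]
            exact norm_factor_le (he u) (fun ρ hρ => by
              linarith [norm_sub_norm_le u ρ, hZ ρ hρ]) (hA u hu)) hv
      have k3 := re_le_of_norm_le hA0 hh0 (hgexp w hw) (hall w
        (mem_closedBall_zero_iff.2 (by linarith [mem_ball_zero_iff.1 hw])))
      show (g w).re ≤ _
      linarith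
    · rw [hz, show 1 - δ / 4 - (1 - δ / 2) = δ / 4 by ring, div_le_iff₀ (by positivity)]
      have : 0 ≤ (3 + 2 * (N : ℝ) + Real.log (5 * (t + 6))) * δ := by positivity
      field_simp
      nlinarith
  · -- the value
    obtain ⟨z, hz⟩ : ∃ z : ℂ, z = ((δ - 1 : ℝ) : ℂ) := ⟨_, rfl⟩
    have hzn : ‖z‖ = 1 - δ := by
      rw [hz, Complex.norm_real, Real.norm_eq_abs, abs_of_nonpos (by linarith)]
      ring
    have hsum : c + z = ((1 / 2 + δ : ℝ) : ℂ) + t * I := by
      rw [hc, hz]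
      push_cast
      ring
    rw [← hz, ← hsum, he, norm_mul, hgexp z (mem_ball_zero_iff.2 (by linarith)), norm_mul,
      Complex.norm_exp]
    have k1 : ‖rootProd Z z‖ ≤ 2 ^ N := hN ▸ norm_rootProd_le (by norm_num) fun ρ hρ =>
      (norm_sub_le _ _).trans (by linarith [hZ ρ hρ])
    have k2 : (2 : ℝ) ^ N ≤ Real.exp N := by
      rw [← mul_one (N : ℝ), Real.exp_nat_mul]
      exact pow_le_pow_left₀ (by norm_num) (by linarith [Real.add_one_le_exp (1 : ℝ)]) N
    have k3 := Real.exp_le_exp.2 ((re_le_norm (g z)))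
    calc ‖rootProd Z z‖ * (‖h 0‖ * Real.exp (g z).re)
        ≤ Real.exp N * (8 * Real.exp N * Real.exp ‖g z‖) :=
          mul_le_mul (k1.trans k2) (mul_le_mul (hh1.trans (by linarith)) k3 (Real.exp_pos _).le
            (by positivity)) (by positivity) (Real.exp_pos _).le
      _ = 8 * Real.exp (2 * N + ‖g z‖) := by
          rw [Real.exp_add, two_mul, Real.exp_add]
          ring

/-- The logarithm is `o (log t)` on the disc of radius `1 - δ`, and there are `o (log t)` zeros. -/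
theorem exists_small_log {δ : ℝ} (hδ : 0 < δ) (hδ2 : δ ≤ 1 / 2)
    (hS : ∀ η : ℝ, 0 < η → ∃ T₀ : ℝ, ∀ T : ℝ, T₀ ≤ T →
      (rightCount (1 / 2 + δ / 4) (T + 1) : ℝ) ≤
        rightCount (1 / 2 + δ / 4) T + η * Real.log T) {ε : ℝ} (hε : 0 < ε) :
    ∃ T₁ : ℝ, ∀ t : ℝ, T₁ ≤ t → ∃ (N : ℕ) (g : ℂ → ℂ),
      DifferentiableOn ℂ g (ball 0 (1 - δ / 4)) ∧
      (∃ (Z : Multiset ℂ) (K : ℂ), Multiset.card Z = N ∧ ∀ z : ℂ, ‖z‖ < 1 - δ / 4 →
        riemannZeta (((1 + 1 / 2 : ℝ) : ℂ) + t * I + z) =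
          rootProd Z z * (K * Complex.exp (g z))) ∧
      (N : ℝ) ≤ ε * Real.log t ∧ (∀ z : ℂ, ‖z‖ ≤ 1 - δ → ‖g z‖ ≤ ε * Real.log t) ∧
      ‖riemannZeta (((1 / 2 + δ : ℝ) : ℂ) + t * I)‖ ≤
        8 * Real.exp (2 * N + ‖g ((δ - 1 : ℝ) : ℂ)‖) := by
  obtain ⟨a, ha⟩ : ∃ a, a = (Real.log (1 - δ) - Real.log (1 / 8)) /
      (Real.log (1 - δ / 2) - Real.log (1 / 8)) := ⟨_, rfl⟩
  have hl12 : Real.log (1 / 8) < Real.log (1 - δ) :=
    Real.log_lt_log (by norm_num) (by linarith)
  have hl23 : Real.log (1 - δ) < Real.log (1 - δ / 2) :=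
    Real.log_lt_log (by linarith) (by linarith)
  have ha0 : 0 ≤ a := ha ▸ div_nonneg (by linarith) (by linarith)
  have ha1 : a < 1 := by
    rw [ha, div_lt_one (by linarith)]
    linarith
  obtain ⟨e, he⟩ : ∃ e, e = (ε / (80 / δ) ^ a) ^ (1 / (1 - a)) := ⟨_, rfl⟩
  have hK : 0 < (80 / δ) ^ a := Real.rpow_pos_of_pos (by positivity) _
  have he0 : 0 < e := he ▸ Real.rpow_pos_of_pos (by positivity) _
  have he1 : e ^ (1 - a) * (80 / δ) ^ a = ε := by
    rw [he, ← Real.rpow_mul (by positivity), one_div_mul_cancel (by linarith), Real.rpow_one,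
      div_mul_cancel₀ _ hK.ne']
  obtain ⟨η, hη⟩ : ∃ η, η = min (e / 22) (min 1 (ε / 3)) := ⟨_, rfl⟩
  have hη0 : 0 < η := hη ▸ lt_min (by positivity) (lt_min one_pos (by positivity))
  have hη1 : η ≤ 1 := hη ▸ (min_le_right _ _).trans (min_le_left _ _)
  have hη2 : η ≤ ε / 3 := hη ▸ (min_le_right _ _).trans (min_le_right _ _)
  have hη3 : η ≤ e / 22 := hη ▸ min_le_left _ _
  obtain ⟨T₀, hT₀⟩ := hS η hη0
  obtain ⟨T₁, hT₁⟩ : ∃ T₁, T₁ = max (max (T₀ + 2) 4) (Real.exp (max 3 (1 / η))) := ⟨_, rfl⟩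
  refine ⟨T₁, fun t ht => ?_⟩
  rw [hT₁] at ht
  have ht4 : 4 ≤ t := (le_max_right _ _).trans ((le_max_left _ _).trans ht)
  have htT : T₀ + 2 ≤ t := (le_max_left _ _).trans ((le_max_left _ _).trans ht)
  obtain ⟨L, hL⟩ : ∃ L, L = Real.log t := ⟨_, rfl⟩
  have hLm : max 3 (1 / η) ≤ L :=
    hL ▸ (Real.le_log_iff_exp_le (by linarith)).2 ((le_max_right _ _).trans ht)
  have hL3 : 3 ≤ L := (le_max_left _ _).trans hLm
  have hηL : 1 ≤ η * L := by
    have := (le_max_right _ _).trans hLm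
    rwa [div_le_iff₀ hη0, mul_comm] at this
  obtain ⟨N, g, hN, hgd, hfac, hin, hout, hval⟩ := exists_disc_log hδ hδ2 ht4
  have hN3 : (N : ℝ) ≤ 3 * (η * L) := by
    have k0 := hT₀ (t - 2) (by linarith)
    have k1 := hT₀ (t - 1) (by linarith)
    have k2 := hT₀ t (by linarith)
    rw [show t - 2 + 1 = t - 1 by ring] at k0
    rw [show t - 1 + 1 = t by ring] at k1
    have l1 := mul_le_mul_of_nonneg_left
      (Real.log_le_log (show 0 < t - 2 by linarith) (show t - 2 ≤ t by linarith)) hη0.le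
    have l2 := mul_le_mul_of_nonneg_left
      (Real.log_le_log (show 0 < t - 1 by linarith) (show t - 1 ≤ t by linarith)) hη0.le
    have k3 := (Nat.cast_le (α := ℝ)).2 hN
    push_cast at k3
    rw [← hL] at k2 l1 l2
    linarith
  have hlt : Real.log (5 * (t + 6)) ≤ 3 * L := by
    rw [hL, show (3 : ℝ) * Real.log t = Real.log (t ^ 3) by rw [Real.log_pow]; norm_num]
    refine Real.log_le_log (by linarith) ?_
    have : 16 * t ≤ t ^ 3 := by nlinarith [mul_le_mul_of_nonneg_left ht4 (show 0 ≤ t * t by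
      positivity), mul_le_mul_of_nonneg_left ht4 (show 0 ≤ t * 4 by positivity)]
    linarith
  have hlt0 : 0 ≤ Real.log (5 * (t + 6)) := Real.log_nonneg (by linarith)
  have hM1 : 10 + 4 * (N : ℝ) ≤ e * L := by
    have := mul_le_mul_of_nonneg_right hη3 (show 0 ≤ L by linarith)
    linarith
  have hM3 : 8 / δ * (3 + 2 * N + Real.log (5 * (t + 6))) ≤ 80 / δ * L := by
    rw [div_mul_eq_mul_div, div_mul_eq_mul_div, div_le_div_iff_of_pos_right hδ]
    have := mul_le_mul_of_nonneg_right hη1 (show 0 ≤ L by linarith)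
    linarith
  refine ⟨N, g, hgd, hfac, ?_, fun z hz => ?_, hval⟩
  · rw [← hL]
    have := mul_le_mul_of_nonneg_right hη2 (show 0 ≤ L by linarith)
    linarith
  have key := (FA.VonKoch.norm_le_three_circles (R := 1 - δ / 4) (r₁ := 1 / 8) (r₂ := 1 - δ)
    (r₃ := 1 - δ / 2) (by norm_num) (by linarith) (by linarith) (by linarith) hgd hin hout
      hz).trans (mul_le_mul
      (Real.rpow_le_rpow (by positivity) hM1 (by rw [← ha]; linarith))
      (Real.rpow_le_rpow (by positivity) hM3 (by rw [← ha]; linarith))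
      (Real.rpow_nonneg (by positivity) _) (Real.rpow_nonneg (by positivity) _))
  rw [← ha, Real.mul_rpow he0.le (by linarith), Real.mul_rpow (by positivity) (by linarith),
    show ∀ x y z w : ℝ, x * y * (z * w) = x * z * (y * w) from fun x y z w => by ring,
    he1, ← Real.rpow_add (by linarith), sub_add_cancel, Real.rpow_one] at key
  rw [← hL]
  exact key

/-- **Few zeros give the hypothesis on `re s = 1/2 + δ`.** -/
theorem lineBound_of_sparse {δ : ℝ} (hδ : 0 < δ) (hδ2 : δ ≤ 1 / 2)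
    (hS : ∀ η : ℝ, 0 < η → ∃ T₀ : ℝ, ∀ T : ℝ, T₀ ≤ T →
      (rightCount (1 / 2 + δ / 4) (T + 1) : ℝ) ≤
        rightCount (1 / 2 + δ / 4) T + η * Real.log T) {ε : ℝ} (hε : 0 < ε) :
    LineBound (1 / 2 + δ) ε := by
  obtain ⟨T₂, hT₂⟩ := exists_small_log hδ hδ2 hS (show 0 < ε / 3 by positivity)
  obtain ⟨T₁, hT₁⟩ : ∃ T₁, T₁ = max T₂ 1 := ⟨_, rfl⟩
  have hbig : ∀ t : ℝ, T₁ ≤ t →
      ‖riemannZeta (((1 / 2 + δ : ℝ) : ℂ) + t * I)‖ ≤ 8 * t ^ ε := fun t ht => by
    rw [hT₁] at ht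
    have ht1 : 1 ≤ t := (le_max_right _ _).trans ht
    obtain ⟨N, g, -, -, hN, hg, hval⟩ := hT₂ t ((le_max_left _ _).trans ht)
    refine hval.trans (mul_le_mul_of_nonneg_left ?_ (by norm_num))
    rw [Real.rpow_def_of_pos (by linarith), Real.exp_le_exp]
    have := hg ((δ - 1 : ℝ) : ℂ) (by
      rw [Complex.norm_real, Real.norm_eq_abs, abs_of_nonpos (by linarith)]
      linarith)
    linarith
  obtain ⟨K, hK'⟩ := (isCompact_Icc (a := (1 : ℝ)) (b := T₁)).exists_bound_of_continuousOn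
    (f := fun t : ℝ => riemannZeta (((1 / 2 + δ : ℝ) : ℂ) + t * I)) fun t ht =>
      ((differentiableAt_riemannZeta (fun h1 => by
        have := congrArg Complex.im h1
        simp at this
        linarith [ht.1])).continuousAt.comp' (by fun_prop)).continuousWithinAt
  refine ⟨8 + |K|, fun t ht => ?_⟩
  have hpos : ∀ u : ℝ, 1 ≤ u →
      ‖riemannZeta (((1 / 2 + δ : ℝ) : ℂ) + u * I)‖ ≤ (8 + |K|) * u ^ ε := fun u hu => by
    have h1 : 1 ≤ u ^ ε := Real.one_le_rpow hu hε.le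
    rcases le_total T₁ u with h | h
    · refine (hbig u h).trans ?_
      nlinarith [abs_nonneg K]
    · refine ((hK' u ⟨hu, h⟩).trans (le_abs_self K)).trans ?_
      nlinarith [abs_nonneg K]
  rcases abs_choice t with h | h
  · rw [h] at ht ⊢
    exact hpos t ht
  · rw [h] at ht ⊢
    rw [← FA.BohrLandau.norm_zeta_neg]
    exact hpos (-t) ht

end FA.Backlund

end
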