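import Fermat.Agent.SelbergCLT.Growth
import Fermat.Agent.DelaValleePoussin.Region
import Mathlib.Analysis.Complex.Hadamard

/-!
# Interpolating polynomial growth in a strip

Hadamard's three lines applied to `(s - 1) ζ s · exp ((s - s₀) ^ 2)`: exponents of growth on two
vertical lines interpolate linearly between them.
-/

set_option autoImplicit false

noncomputable section

namespace FA.Backlund

open Complex Set
open scoped ComplexConjugate

/-- `ζ` is `O (|t| ^ e)` on the line `re s = σ`. -/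
def LineBound (σ e : ℝ) : Prop :=
  ∃ C : ℝ, ∀ t : ℝ, 1 ≤ |t| → ‖riemannZeta ((σ : ℂ) + t * I)‖ ≤ C * |t| ^ e

/-- `(s - 1) ζ s` is `O ((|t| + 3) ^ p)` on the line `re s = σ`. -/
def ClearedBound (σ p : ℝ) : Prop :=
  ∃ A : ℝ, 0 ≤ A ∧ ∀ t : ℝ, ‖riemannZeta₁ ((σ : ℂ) + t * I)‖ ≤ A * (|t| + 3) ^ p

theorem gauss_weight_le {p : ℝ} (hp : 0 ≤ p) (t t₀ : ℝ) :
    (|t| + 3) ^ p * Real.exp (-(t - t₀) ^ 2) ≤ (|t₀| + 3) ^ p * Real.exp (p ^ 2 / 4) := by
  obtain ⟨u, hu⟩ : ∃ u, u = |t - t₀| := ⟨_, rfl⟩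
  have hu0 : 0 ≤ u := hu ▸ abs_nonneg _
  have h1 : |t| + 3 ≤ (|t₀| + 3) * Real.exp u := by
    have h2 := abs_sub_abs_le_abs_sub t t₀
    rw [← hu] at h2
    have h3 := Real.add_one_le_exp u
    nlinarith [abs_nonneg t₀]
  have h2 : (|t| + 3) ^ p ≤ (|t₀| + 3) ^ p * Real.exp (p * u) := by
    refine (Real.rpow_le_rpow (by positivity) h1 hp).trans (le_of_eq ?_)
    rw [Real.mul_rpow (by positivity) (Real.exp_pos u).le, ← Real.exp_mul, mul_comm u p]
  have h3 : (t - t₀) ^ 2 = u ^ 2 := by rw [hu, sq_abs]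
  calc (|t| + 3) ^ p * Real.exp (-(t - t₀) ^ 2)
      ≤ (|t₀| + 3) ^ p * Real.exp (p * u) * Real.exp (-(t - t₀) ^ 2) :=
        mul_le_mul_of_nonneg_right h2 (Real.exp_pos _).le
    _ ≤ (|t₀| + 3) ^ p * Real.exp (p ^ 2 / 4) := by
        rw [mul_assoc, ← Real.exp_add]
        refine mul_le_mul_of_nonneg_left (Real.exp_le_exp.2 ?_) (by positivity)
        rw [h3]
        nlinarith [sq_nonneg (u - p / 2)]

/-- **The interpolation.** -/
theorem ClearedBound.interp {a b p q : ℝ} (ha : ClearedBound a p) (hb : ClearedBound b q)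
    (hab : a < b) (h4 : -4 ≤ a) (h5 : b ≤ 5) (hp : 0 ≤ p) (hq : 0 ≤ q) :
    ∃ C : ℝ, 0 ≤ C ∧ ∀ σ t : ℝ, a ≤ σ → σ ≤ b → ‖riemannZeta₁ ((σ : ℂ) + t * I)‖ ≤
      C * (|t| + 3) ^ (p * (1 - (σ - a) / (b - a)) + q * ((σ - a) / (b - a))) := by
  obtain ⟨A, hA, hA'⟩ := ha
  obtain ⟨B, hB, hB'⟩ := hb
  obtain ⟨M, hM⟩ : ∃ M : ℝ,
      M = max (max A B * Real.exp (81 + p ^ 2 / 4 + q ^ 2 / 4)) 1 := ⟨_, rfl⟩
  have hM1 : 1 ≤ M := hM ▸ le_max_right _ _
  refine ⟨M, by linarith, fun σ t h1 h2 => ?_⟩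
  obtain ⟨s₀, hs₀⟩ : ∃ s₀ : ℂ, s₀ = (σ : ℂ) + t * I := ⟨_, rfl⟩
  obtain ⟨F, hF⟩ : ∃ F : ℂ → ℂ,
      F = fun s => riemannZeta₁ s * cexp ((s - s₀) ^ 2) := ⟨_, rfl⟩
  have hsq : ∀ s : ℂ, ((s - s₀) ^ 2).re = (s.re - σ) ^ 2 - (s.im - t) ^ 2 := fun s => by
    rw [sq, mul_re]
    simp [hs₀]
    ring
  have hgauss : ∀ s : ℂ, s.re ∈ Icc a b →
      ‖cexp ((s - s₀) ^ 2)‖ ≤ Real.exp 81 * Real.exp (-(s.im - t) ^ 2) := fun s hs => by
    rw [Complex.norm_exp, hsq, ← Real.exp_add, Real.exp_le_exp, neg_eq_neg_one_mul]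
    nlinarith [hs.1, hs.2]
  have hedge : ∀ (c e K : ℝ), c ∈ Icc a b → 0 ≤ e → 0 ≤ K →
      K * Real.exp (81 + e ^ 2 / 4) ≤ M →
      (∀ u : ℝ, ‖riemannZeta₁ ((c : ℂ) + u * I)‖ ≤ K * (|u| + 3) ^ e) →
      ∀ s ∈ re ⁻¹' {c}, ‖F s‖ ≤ M * (|t| + 3) ^ e := fun c e K hc he hK hKM hbd s hs => by
    have hre : s.re = c := hs
    have h3 := hbd s.im
    rw [← hre, re_add_im] at h3
    rw [hF, norm_mul]
    refine (mul_le_mul h3 (hgauss s (hre ▸ hc)) (norm_nonneg _) (by positivity)).trans ?_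
    calc K * (|s.im| + 3) ^ e * (Real.exp 81 * Real.exp (-(s.im - t) ^ 2))
        = K * Real.exp 81 * ((|s.im| + 3) ^ e * Real.exp (-(s.im - t) ^ 2)) := by ring
      _ ≤ K * Real.exp 81 * ((|t| + 3) ^ e * Real.exp (e ^ 2 / 4)) :=
          mul_le_mul_of_nonneg_left (gauss_weight_le he _ _) (by positivity)
      _ = K * Real.exp (81 + e ^ 2 / 4) * (|t| + 3) ^ e := by rw [Real.exp_add]; ring
      _ ≤ _ := mul_le_mul_of_nonneg_right hKM (by positivity)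
  have hKle : ∀ K e : ℝ, 0 ≤ K → K ≤ max A B → e ^ 2 / 4 ≤ p ^ 2 / 4 + q ^ 2 / 4 →
      K * Real.exp (81 + e ^ 2 / 4) ≤ M := fun K e hK hK' he => by
    rw [hM]
    refine le_max_of_le_left (mul_le_mul hK' (Real.exp_le_exp.2 (by linarith))
      (Real.exp_pos _).le (hK.trans hK'))
  have hea := hedge a p A ⟨le_rfl, hab.le⟩ hp hA
    (hKle A p hA (le_max_left _ _) (le_add_of_nonneg_right (by positivity))) hA'
  have heb := hedge b q B ⟨hab.le, le_rfl⟩ hq hB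
    (hKle B q hB (le_max_right _ _) (le_add_of_nonneg_left (by positivity))) hB'
  have hbdd : BddAbove ((norm ∘ F) '' HadamardThreeLines.verticalClosedStrip a b) := by
    obtain ⟨N, hN⟩ : ∃ N : ℕ, N = FA.SelbergCLT.growDeg := ⟨_, rfl⟩
    refine ⟨Real.exp N * (Real.exp 81 * ((|t| + 3) ^ (N : ℝ) * Real.exp ((N : ℝ) ^ 2 / 4))), ?_⟩
    rintro _ ⟨s, hs, rfl⟩
    have hs' : s.re ∈ Icc a b := hs
    have h3 := FA.SelbergCLT.norm_riemannZeta₁_le (z := s)
      ⟨by linarith [hs'.1], by linarith [hs'.2]⟩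
    rw [← hN] at h3
    show ‖F s‖ ≤ _
    rw [hF, norm_mul]
    refine (mul_le_mul h3 (hgauss s hs') (norm_nonneg _) (by positivity)).trans ?_
    calc Real.exp N * (|s.im| + 3) ^ N * (Real.exp 81 * Real.exp (-(s.im - t) ^ 2))
        = Real.exp N * (Real.exp 81 *
            ((|s.im| + 3) ^ (N : ℝ) * Real.exp (-(s.im - t) ^ 2))) := by
          rw [Real.rpow_natCast]; ring
      _ ≤ _ := mul_le_mul_of_nonneg_left (mul_le_mul_of_nonneg_left
          (gauss_weight_le (Nat.cast_nonneg N) _ _) (Real.exp_pos _).le) (Real.exp_pos _).le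
  have hd : Differentiable ℂ F := hF ▸ differentiable_riemannZeta₁.mul
    (((differentiable_id.sub_const s₀).pow 2).cexp)
  have hre0 : s₀.re = σ := by simp [hs₀]
  have key := HadamardThreeLines.norm_le_interp_of_mem_verticalClosedStrip' hab (z := s₀)
    (show s₀.re ∈ Icc a b by rw [hre0]; exact ⟨h1, h2⟩) hd.diffContOnCl hbdd hea heb
  rw [hre0] at key
  have hval : F s₀ = riemannZeta₁ s₀ := by simp [hF]
  rw [hval] at key
  rw [← hs₀]
  refine key.trans (le_of_eq ?_)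
  have h0 : 0 < M := by linarith
  have ht : 0 < |t| + 3 := by positivity
  rw [Real.mul_rpow h0.le (by positivity), Real.mul_rpow h0.le (by positivity),
    ← Real.rpow_mul ht.le, ← Real.rpow_mul ht.le,
    show ∀ x y z w : ℝ, x * y * (z * w) = x * z * (y * w) from fun x y z w => by ring,
    ← Real.rpow_add h0, ← Real.rpow_add ht, sub_add_cancel, Real.rpow_one]

/-- From `ζ` to `(s - 1) ζ s`. -/
theorem LineBound.cleared {σ e : ℝ} (h : LineBound σ e) (he : 0 ≤ e) (hσ : |σ| ≤ 4) :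
    ClearedBound σ (e + 1) := by
  obtain ⟨C, hC⟩ := h
  obtain ⟨K, hK⟩ := (isCompact_Icc (a := (-1 : ℝ)) (b := 1)).exists_bound_of_continuousOn
    (f := fun t : ℝ => riemannZeta₁ ((σ : ℂ) + t * I))
    (differentiable_riemannZeta₁.continuous.comp (by fun_prop)).continuousOn
  refine ⟨5 * |C| + |K|, by positivity, fun t => ?_⟩
  have ht3 : 1 ≤ |t| + 3 := by linarith [abs_nonneg t]
  have hone : 1 ≤ (|t| + 3) ^ (e + 1) := Real.one_le_rpow ht3 (by linarith)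
  rcases le_or_gt |t| 1 with ht | ht
  · refine ((hK t (abs_le.1 ht)).trans (le_abs_self K)).trans ?_
    nlinarith [abs_nonneg C, abs_nonneg K]
  obtain ⟨s, hs⟩ : ∃ s : ℂ, s = (σ : ℂ) + t * I := ⟨_, rfl⟩
  have hne : s ≠ 1 := fun h1 => by
    have := congrArg Complex.im h1
    simp [hs] at this
    rw [this] at ht
    norm_num at ht
  have hs1 : ‖s - 1‖ ≤ 5 * (|t| + 3) := by
    refine (norm_le_abs_re_add_abs_im _).trans ?_
    simp only [hs, sub_re, add_re, ofReal_re, mul_re, I_re, mul_zero, ofReal_im, I_im, mul_one,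
      sub_self, add_zero, one_re, sub_im, add_im, mul_im, zero_add, one_im, sub_zero]
    have := abs_sub σ 1
    rw [abs_one] at this
    linarith [abs_nonneg t]
  have h3 : ‖riemannZeta s‖ ≤ |C| * (|t| + 3) ^ e := (hs ▸ hC t ht.le).trans
    (mul_le_mul (le_abs_self C) (Real.rpow_le_rpow (abs_nonneg t) (by linarith) he)
      (by positivity) (abs_nonneg C))
  rw [← hs, show riemannZeta₁ s = (s - 1) * riemannZeta s by
    rw [riemannZeta_eq_inv_sub_mul hne, ← mul_assoc, mul_inv_cancel₀ (sub_ne_zero.2 hne), one_mul],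
    norm_mul, Real.rpow_add_one (by positivity)]
  refine (mul_le_mul hs1 h3 (norm_nonneg _) (by positivity)).trans ?_
  have : 0 ≤ |K| * ((|t| + 3) ^ e * (|t| + 3)) := by positivity
  nlinarith

/-- Back to `ζ`. -/
theorem norm_zeta_le_of_cleared {σ t A e : ℝ} (hA : 0 ≤ A) (he : 0 ≤ e + 1) (ht : 1 ≤ |t|)
    (h : ‖riemannZeta₁ ((σ : ℂ) + t * I)‖ ≤ A * (|t| + 3) ^ (e + 1)) :
    ‖riemannZeta ((σ : ℂ) + t * I)‖ ≤ A * 4 ^ (e + 1) * |t| ^ e := by
  obtain ⟨s, hs⟩ : ∃ s : ℂ, s = (σ : ℂ) + t * I := ⟨_, rfl⟩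
  rw [← hs] at h ⊢
  have him : s.im = t := by simp [hs]
  have hne : s ≠ 1 := fun h1 => by
    have := congrArg Complex.im h1
    rw [him, one_im] at this
    rw [this] at ht
    norm_num at ht
  have hlow : |t| ≤ ‖s - 1‖ := by simpa [him] using abs_im_le_norm (s - 1)
  have ht0 : 0 < |t| := by linarith
  rw [riemannZeta_eq_inv_sub_mul hne, norm_mul, norm_inv]
  refine (mul_le_mul (inv_anti₀ ht0 hlow) (h.trans (mul_le_mul_of_nonneg_left
    (Real.rpow_le_rpow (by positivity) (show |t| + 3 ≤ 4 * |t| by linarith) he) hA))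
    (norm_nonneg _) (by positivity)).trans (le_of_eq ?_)
  rw [Real.mul_rpow (by norm_num) ht0.le, Real.rpow_add_one ht0.ne' e]
  field_simp

theorem lineBound_two_lt {σ : ℝ} (hσ : 5 / 4 ≤ σ) {e : ℝ} (he : 0 ≤ e) : LineBound σ e := by
  refine ⟨‖riemannZeta (σ : ℂ)‖, fun t ht =>
    (FA.DLVP.norm_zeta_le_real (σ := σ) (by linarith) (by simp)).trans ?_⟩
  exact le_mul_of_one_le_right (norm_nonneg _) (Real.one_le_rpow ht he)

theorem clearedBound_neg_four : ClearedBound (-4) (FA.SelbergCLT.growDeg : ℝ) := by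
  refine ⟨Real.exp FA.SelbergCLT.growDeg, (Real.exp_pos _).le, fun t => ?_⟩
  have h := FA.SelbergCLT.norm_riemannZeta₁_le (z := ((-4 : ℝ) : ℂ) + t * I) (by norm_num)
  simpa [Real.rpow_natCast] using h

end FA.Backlund

end
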