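import Fermat.Agent.LindelofBacklund.Disc

/-!
# Backlund's theorem

The hypothesis of Lindelöf holds iff for every `σ > 1/2` there are `o (log T)` zeros with
`re ρ ≥ σ` and `T < im ρ ≤ T + 1`. In particular it follows from the Riemann hypothesis.
-/

set_option autoImplicit false

noncomputable section

namespace FA.Backlund

open Complex Filter FA.RiemannMangoldt
open FA.BohrLandau (zetaMult rightCount)
open scoped Topology

/-- There are `o (log T)` zeros in the windows to the right of the critical line. -/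
def ZerosSparse : Prop :=
  ∀ σ : ℝ, 1 / 2 < σ → Tendsto
    (fun T => ((rightCount σ (T + 1) : ℝ) - rightCount σ T) / Real.log T) atTop (𝓝 0)

theorem zerosSparse_of_lineBound (hLH : ∀ ε : ℝ, 0 < ε → LineBound (1 / 2) ε) : ZerosSparse := by
  intro σ hσ
  rw [Metric.tendsto_nhds]
  intro η hη
  obtain ⟨T₀, hT₀⟩ := exists_rightCount_step hLH hσ (half_pos hη)
  filter_upwards [eventually_ge_atTop T₀, eventually_ge_atTop 2] with T hT hT2
  have hl : 0 < Real.log T := Real.log_pos (by linarith)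
  have h1 := hT₀ T hT
  have h2 := (Nat.cast_le (α := ℝ)).2 (rightCount_mono (σ := σ) (show T ≤ T + 1 by linarith))
  rw [Real.dist_eq, sub_zero, abs_of_nonneg (div_nonneg (by linarith) hl.le), div_lt_iff₀ hl]
  linarith [mul_pos hη hl]

theorem ZerosSparse.step (h : ZerosSparse) {σ η : ℝ} (hσ : 1 / 2 < σ) (hη : 0 < η) :
    ∃ T₀ : ℝ, ∀ T : ℝ, T₀ ≤ T →
      (rightCount σ (T + 1) : ℝ) ≤ rightCount σ T + η * Real.log T := by
  obtain ⟨T₀, hT₀⟩ := eventually_atTop.1 ((h σ hσ).eventually (eventually_le_nhds hη))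
  refine ⟨max T₀ 2, fun T hT => ?_⟩
  have := hT₀ T ((le_max_left _ _).trans hT)
  rw [div_le_iff₀ (Real.log_pos (by linarith [(le_max_right _ _).trans hT]))] at this
  linarith

theorem lineBound_of_zerosSparse (h : ZerosSparse) {ε : ℝ} (hε : 0 < ε) :
    LineBound (1 / 2) ε := by
  obtain ⟨N, hN⟩ : ∃ N : ℝ, N = (FA.SelbergCLT.growDeg : ℝ) := ⟨_, rfl⟩
  have hN0 : 0 ≤ N := hN ▸ Nat.cast_nonneg _
  obtain ⟨δ, hδ⟩ : ∃ δ, δ = min (1 / 2) (ε / (N + 1)) := ⟨_, rfl⟩
  have hδ0 : 0 < δ := hδ ▸ lt_min (by norm_num) (by positivity)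
  have hδ2 : δ ≤ 1 / 2 := hδ ▸ min_le_left _ _
  have hNδ : N * δ ≤ ε := by
    have := mul_le_mul_of_nonneg_left (hδ ▸ min_le_right (1 / 2) (ε / (N + 1))) hN0
    refine this.trans ?_
    rw [mul_div_assoc', div_le_iff₀ (by linarith)]
    linarith
  have hl := (lineBound_of_sparse hδ0 hδ2 (fun η hη => h.step (by linarith) hη)
    (half_pos hε)).cleared (half_pos hε).le (by rw [abs_le]; constructor <;> linarith)
  obtain ⟨A, hA, hA'⟩ := clearedBound_neg_four.interp hl (by linarith) le_rfl (by linarith)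
    (Nat.cast_nonneg _) (by linarith)
  refine ⟨A * 4 ^ (ε + 1), fun t ht =>
    norm_zeta_le_of_cleared hA (by linarith) ht ((hA' (1 / 2) t (by norm_num) (by linarith)).trans
      (mul_le_mul_of_nonneg_left (Real.rpow_le_rpow_of_exponent_le
        (by linarith [abs_nonneg t]) ?_) hA))⟩
  rw [← hN, show (1 / 2 : ℝ) + δ - -4 = 9 / 2 + δ by ring,
    show (1 / 2 : ℝ) - -4 = 9 / 2 by norm_num, one_sub_div (by linarith), mul_div_assoc',
    mul_div_assoc', ← add_div, div_le_iff₀ (by linarith)]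
  nlinarith [mul_nonneg hε.le hδ0.le]

/-- **Backlund's theorem.** -/
theorem lindelof_iff : (∀ ε : ℝ, 0 < ε → LineBound (1 / 2) ε) ↔ ZerosSparse :=
  ⟨zerosSparse_of_lineBound, fun h _ hε => lineBound_of_zerosSparse h hε⟩

theorem zerosSparse_of_riemannHypothesis (h : RiemannHypothesis) : ZerosSparse := by
  intro σ hσ
  have h0 : ∀ T, rightCount σ T = 0 := fun T => Finset.sum_eq_zero fun ρ hρ => by
    rw [Finset.mem_filter, Set.Finite.mem_toFinset] at hρ
    obtain ⟨⟨hz, hre, hre1, -, -⟩, hσρ⟩ := hρ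
    have hhalf := h ρ hz
      (by
        rintro ⟨n, hn⟩
        rw [hn] at hre
        simp at hre
        linarith [(Nat.cast_nonneg (α := ℝ) n)])
      (fun e => by rw [e] at hre1; simp at hre1)
    linarith
  simp [h0]

end FA.Backlund

end
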